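/-
Row 37 (S43), block T2 (helper140): LEMMA RES (pure valuation theory).

`F / F₀` cyclic with group `⟨γ⟩` of order `m`, `K ⊆ F₀` algebraically closed, `θ ∈ F` with
`γ θ = ζ θ` (`ζ` a primitive `m`-th root of unity), `V` a valuation ring of `F` in which `m` is a unit.
`IsC V x` : `x ∈ Kˣ (1 + 𝔪_V)`.

If `g (γ^i h)^(-n) ∈ Kˣ (1 + 𝔪_V)` for all `i` (i.e. `g h^(-n)` is congruent to a constant at all the
conjugates of `V`; `g ∈ F₀`), then there are `j` and `h₀ ∈ F₀ˣ` with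
`g (h₀ θ^j)^(-n) ∈ Kˣ (1 + 𝔪_V)`.

Proof: `h₀ θ^j = L_j(h) = ∑_i ζ^(-ij) γ^i h` (Lagrange resolvent).  `γ^i h / h = η_i (1 + ε_i)`, `η_i ∈ Kˣ`
(its `n`-th power is congruent to a constant); normalise by the largest `η_{i₀}`; the finite Fourier
transform `S_j = ∑_i (η_i / η_{i₀}) ζ^(-ij)` satisfies `∑_j ζ^(i₀ j) S_j = m`, a unit, so some `S_j` is a
unit, and `L_j(h) / h = η_{i₀} (S_j + small)`.
No decomposition groups, no approximation theorem.  Mathlib only.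
-/
import Mathlib

set_option autoImplicit false

namespace Fermat.Agent.S43.T2

open scoped BigOperators

variable {K F : Type*} [Field K] [Field F] [Algebra K F]

/-- `y ∈ 1 + 𝔪_V`. -/
def IsOneAt (V : ValuationSubring F) (y : F) : Prop := V.valuation (y - 1) < 1

/-- `x ∈ Kˣ (1 + 𝔪_V)`. -/
def IsC (K : Type*) {F : Type*} [Field K] [Field F] [Algebra K F] (V : ValuationSubring F)
    (x : F) : Prop :=
  ∃ c : K, c ≠ 0 ∧ IsOneAt V (x * (algebraMap K F c)⁻¹)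

namespace IsOneAt

variable {V : ValuationSubring F} {y z : F}

theorem val_eq_one (h : IsOneAt V y) : V.valuation y = 1 := by
  have := Valuation.map_one_add_of_lt (v := V.valuation) h
  rwa [add_sub_cancel] at this

theorem ne_zero (h : IsOneAt V y) : y ≠ 0 := by
  rintro rfl
  have := h.val_eq_one
  rw [map_zero] at this
  exact zero_ne_one this

theorem one : IsOneAt V (1 : F) := by
  unfold IsOneAt
  rw [sub_self, map_zero]
  exact zero_lt_one

theorem mul (h : IsOneAt V y) (h' : IsOneAt V z) : IsOneAt V (y * z) := by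
  unfold IsOneAt
  have e : y * z - 1 = (y - 1) * z + (z - 1) := by ring
  rw [e]
  refine Valuation.map_add_lt _ ?_ h'
  rw [map_mul, h'.val_eq_one, mul_one]
  exact h

theorem inv (h : IsOneAt V y) : IsOneAt V y⁻¹ := by
  unfold IsOneAt
  have hy := h.ne_zero
  have e : y⁻¹ - 1 = -(y - 1) * y⁻¹ := by field_simp; ring
  rw [e, map_mul, Valuation.map_neg, map_inv₀, h.val_eq_one, inv_one, mul_one]
  exact h

theorem pow (h : IsOneAt V y) (n : ℕ) : IsOneAt V (y ^ n) := by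
  induction n with
  | zero => rw [pow_zero]; exact one
  | succ n ih => rw [pow_succ]; exact ih.mul h

end IsOneAt

namespace IsC

variable {V : ValuationSubring F} {x y : F}

theorem ne_zero (h : IsC K V x) : x ≠ 0 := by
  obtain ⟨c, -, h⟩ := h
  exact left_ne_zero_of_mul h.ne_zero

theorem mul (h : IsC K V x) (h' : IsC K V y) : IsC K V (x * y) := by
  obtain ⟨c, hc, h⟩ := h
  obtain ⟨d, hd, h'⟩ := h'
  refine ⟨c * d, mul_ne_zero hc hd, ?_⟩
  have e : x * y * (algebraMap K F (c * d))⁻¹ =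
      (x * (algebraMap K F c)⁻¹) * (y * (algebraMap K F d)⁻¹) := by
    rw [map_mul, mul_inv]; ring
  rw [e]
  exact h.mul h'

theorem inv (h : IsC K V x) : IsC K V x⁻¹ := by
  obtain ⟨c, hc, h⟩ := h
  refine ⟨c⁻¹, inv_ne_zero hc, ?_⟩
  have e : x⁻¹ * (algebraMap K F c⁻¹)⁻¹ = (x * (algebraMap K F c)⁻¹)⁻¹ := by
    rw [map_inv₀, mul_inv]
  rw [e]
  exact h.inv

theorem pow (h : IsC K V x) (n : ℕ) : IsC K V (x ^ n) := by
  obtain ⟨c, hc, h⟩ := h
  refine ⟨c ^ n, pow_ne_zero n hc, ?_⟩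
  have e : x ^ n * (algebraMap K F (c ^ n))⁻¹ = (x * (algebraMap K F c)⁻¹) ^ n := by
    rw [map_pow, mul_pow, inv_pow]
  rw [e]
  exact h.pow n

end IsC

/-- the valuation of a root of unity is `1`. -/
theorem val_eq_one_of_pow_eq_one (V : ValuationSubring F) {n : ℕ} (hn : n ≠ 0) {ξ : F}
    (h : ξ ^ n = 1) : V.valuation ξ = 1 := by
  have h1 : V.valuation ξ ^ n = 1 := by rw [← map_pow, h, map_one]
  exact (pow_eq_one_iff.1 h1).resolve_right hn

/-- extraction of roots in `1 + 𝔪_V`, up to roots of unity. -/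
theorem exists_root_of_unity (V : ValuationSubring F) {n : ℕ} (hn : 0 < n) {ω : K}
    (hω : IsPrimitiveRoot ω n) {z : F} (hz : IsOneAt V (z ^ n)) :
    ∃ ξ : K, ξ ^ n = 1 ∧ IsOneAt V (z * (algebraMap K F ξ)⁻¹) := by
  classical
  have hprod := congrArg (Polynomial.aeval z) (Polynomial.X_pow_sub_one_eq_prod hn hω)
  simp only [map_sub, map_pow, Polynomial.aeval_X, map_one, map_prod, Polynomial.aeval_C]
    at hprod
  have hlt : V.valuation (∏ ξ ∈ Polynomial.nthRootsFinset n (1 : K), (z - algebraMap K F ξ)) < 1 := by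
    rw [← hprod]
    exact hz
  have hzval : V.valuation z = 1 := by
    have h1 : V.valuation z ^ n = 1 := by rw [← map_pow]; exact hz.val_eq_one
    exact (pow_eq_one_iff.1 h1).resolve_right hn.ne'
  have hroot : ∀ ξ ∈ Polynomial.nthRootsFinset n (1 : K), ξ ^ n = 1 := fun ξ hξ =>
    (Polynomial.mem_nthRootsFinset hn (1 : K)).1 hξ
  have hξval : ∀ ξ ∈ Polynomial.nthRootsFinset n (1 : K), V.valuation (algebraMap K F ξ) = 1 :=
    fun ξ hξ => val_eq_one_of_pow_eq_one V hn.ne' (by rw [← map_pow, hroot ξ hξ, map_one])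
  by_contra hcon
  have hall : ∀ ξ ∈ Polynomial.nthRootsFinset n (1 : K), V.valuation (z - algebraMap K F ξ) = 1 := by
    intro ξ hξ
    have hle : V.valuation (z - algebraMap K F ξ) ≤ 1 := by
      refine (Valuation.map_sub _ _ _).trans ?_
      rw [hzval, hξval ξ hξ, max_self]
    refine le_antisymm hle (not_lt.1 fun hlt' => hcon ⟨ξ, hroot ξ hξ, ?_⟩)
    unfold IsOneAt
    have hξ0 : algebraMap K F ξ ≠ 0 := by
      intro h0
      have := hξval ξ hξ
      rw [h0, map_zero] at this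
      exact zero_ne_one this
    have e : z * (algebraMap K F ξ)⁻¹ - 1 = (z - algebraMap K F ξ) * (algebraMap K F ξ)⁻¹ := by
      field_simp
    rw [e, map_mul, map_inv₀, hξval ξ hξ, inv_one, mul_one]
    exact hlt'
  rw [map_prod, Finset.prod_congr rfl hall, Finset.prod_const_one] at hlt
  exact lt_irrefl _ hlt

/-- extraction of roots in `Kˣ (1 + 𝔪_V)`. -/
theorem IsC.of_pow [IsAlgClosed K] {V : ValuationSubring F} {n : ℕ} (hn : 0 < n) {ω : K}
    (hω : IsPrimitiveRoot ω n) {y : F} (h : IsC K V (y ^ n)) : IsC K V y := by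
  obtain ⟨c, hc, h⟩ := h
  obtain ⟨d, hd⟩ := IsAlgClosed.exists_pow_nat_eq c hn
  have hd0 : d ≠ 0 := by
    rintro rfl
    rw [zero_pow hn.ne'] at hd
    exact hc hd.symm
  have e : y ^ n * (algebraMap K F c)⁻¹ = (y * (algebraMap K F d)⁻¹) ^ n := by
    rw [← hd, map_pow, mul_pow, inv_pow]
  rw [e] at h
  obtain ⟨ξ, hξ, h1⟩ := exists_root_of_unity V hn hω h
  have hξ0 : ξ ≠ 0 := by
    rintro rfl
    rw [zero_pow hn.ne'] at hξ
    exact zero_ne_one hξ
  refine ⟨d * ξ, mul_ne_zero hd0 hξ0, ?_⟩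
  have e2 : y * (algebraMap K F (d * ξ))⁻¹ = y * (algebraMap K F d)⁻¹ * (algebraMap K F ξ)⁻¹ := by
    rw [map_mul, mul_inv]; ring
  rw [e2]
  exact h1

/-- orthogonality of characters of `ℤ / m`. -/
theorem sum_pow_mul_eq {m : ℕ} {ζ : K} (hζ : IsPrimitiveRoot ζ m) {i i₀ : ℕ} (hi : i < m)
    (hi₀ : i₀ < m) :
    ∑ j ∈ Finset.range m, ζ ^ (i₀ * j) * ζ⁻¹ ^ (i * j) = if i = i₀ then (m : K) else 0 := by
  have hζ0 : ζ ≠ 0 := hζ.ne_zero (by omega)
  have e : ∀ j, ζ ^ (i₀ * j) * ζ⁻¹ ^ (i * j) = (ζ ^ i₀ * ζ⁻¹ ^ i) ^ j := by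
    intro j
    rw [mul_pow, ← pow_mul, ← pow_mul]
  rw [Finset.sum_congr rfl fun j _ => e j]
  split_ifs with h
  · subst h
    have : ζ ^ i * ζ⁻¹ ^ i = 1 := by rw [← mul_pow, mul_inv_cancel₀ hζ0, one_pow]
    rw [this]
    simp
  · set x := ζ ^ i₀ * ζ⁻¹ ^ i with hx
    have hx1 : x ≠ 1 := by
      intro h1
      apply h
      have h2 : ζ ^ i₀ = ζ ^ i := by
        have h3 : ζ ^ i₀ * ζ⁻¹ ^ i * ζ ^ i = ζ ^ i := by rw [← hx, h1, one_mul]
        rwa [mul_assoc, ← mul_pow, inv_mul_cancel₀ hζ0, one_pow, mul_one] at h3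
      exact (hζ.pow_inj hi₀ hi h2).symm
    have hxm : x ^ m = 1 := by
      rw [hx, mul_pow, ← pow_mul, ← pow_mul, mul_comm i₀, mul_comm i, pow_mul, pow_mul, inv_pow,
        hζ.pow_eq_one, inv_one, one_pow, one_pow, one_mul]
    have h4 := geom_sum_mul x m
    rw [hxm, sub_self] at h4
    exact (mul_eq_zero.1 h4).resolve_right (sub_ne_zero.2 hx1)

/-- **LEMMA RES**, core (no `θ`): some Lagrange resolvent `L` of `h` is congruent to a constant times `h`. -/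
theorem res_core [IsAlgClosed K] (V : ValuationSubring F) (γ : F ≃ₐ[K] F) {m n : ℕ} (hm : 0 < m)
    (hn : 0 < n) (hγ : γ ^ m = 1) (hmV : V.valuation (m : F) = 1)
    {ζ : K} (hζ : IsPrimitiveRoot ζ m) {ω : K} (hω : IsPrimitiveRoot ω n)
    {g h : F} (H : ∀ i : ℕ, IsC K V (g * (((γ ^ i) h) ^ n)⁻¹)) :
    ∃ (j : ℕ) (L : F), L ≠ 0 ∧ γ L = algebraMap K F (ζ ^ j) * L ∧ IsC K V (L * h⁻¹) := by
  classical
  set v := V.valuation with hv
  have hζ0 : ζ ≠ 0 := hζ.ne_zero hm.ne'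
  have hg0 : g ≠ 0 := left_ne_zero_of_mul (H 0).ne_zero
  have hh0 : h ≠ 0 := by
    have h1 := right_ne_zero_of_mul (H 0).ne_zero
    rw [pow_zero] at h1
    intro h0
    apply h1
    show ((h : F) ^ n)⁻¹ = 0
    rw [h0, zero_pow hn.ne', inv_zero]
  have hγh0 : ∀ i : ℕ, (γ ^ i) h ≠ 0 := fun i => (map_ne_zero _).2 hh0
  -- `γ^i h / h` is congruent to a constant
  have hC : ∀ i : ℕ, IsC K V ((γ ^ i) h * h⁻¹) := by
    intro i
    apply IsC.of_pow hn hω
    have h1 := (H 0).mul (H i).inv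
    have e : g * (((γ ^ 0) h) ^ n)⁻¹ * (g * (((γ ^ i) h) ^ n)⁻¹)⁻¹ = ((γ ^ i) h * h⁻¹) ^ n := by
      have : (γ ^ 0) h = h := by rw [pow_zero]; rfl
      rw [this]
      have := hγh0 i
      rw [mul_pow, inv_pow]
      field_simp
    rwa [e] at h1
  choose η hη0 hη using hC
  -- the largest constant
  obtain ⟨i₀, hi₀, hmax⟩ := Finset.exists_max_image (Finset.range m)
    (fun i => v (algebraMap K F (η i))) ⟨0, Finset.mem_range.2 hm⟩
  have hi₀' : i₀ < m := Finset.mem_range.1 hi₀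
  set a : ℕ → K := fun i => η i * (η i₀)⁻¹ with ha
  have hηF : ∀ i, algebraMap K F (η i) ≠ 0 := fun i => (map_ne_zero _).2 (hη0 i)
  have hvη : ∀ i, v (algebraMap K F (η i)) ≠ 0 := fun i => (Valuation.ne_zero_iff _).2 (hηF i)
  have hav : ∀ i ∈ Finset.range m, v (algebraMap K F (a i)) ≤ 1 := by
    intro i hi
    rw [ha]
    simp only [map_mul, map_inv₀]
    rw [← div_eq_mul_inv]
    exact (div_le_one₀ (zero_lt_iff.2 (hvη i₀))).2 (hmax i hi)
  have hζv : ∀ t : ℕ, v (algebraMap K F (ζ⁻¹ ^ t)) = 1 := by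
    intro t
    apply val_eq_one_of_pow_eq_one V hm.ne'
    rw [← map_pow, ← pow_mul, mul_comm, pow_mul, inv_pow, hζ.pow_eq_one, inv_one, one_pow, map_one]
  have hζv' : ∀ t : ℕ, v (algebraMap K F (ζ ^ t)) = 1 := by
    intro t
    apply val_eq_one_of_pow_eq_one V hm.ne'
    rw [← map_pow, ← pow_mul, mul_comm, pow_mul, hζ.pow_eq_one, one_pow, map_one]
  set S : ℕ → K := fun j => ∑ i ∈ Finset.range m, a i * ζ⁻¹ ^ (i * j) with hS
  have hSv : ∀ j, v (algebraMap K F (S j)) ≤ 1 := by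
    intro j
    rw [hS]
    simp only [map_sum]
    refine Valuation.map_sum_le _ fun i hi => ?_
    rw [map_mul, map_mul, hζv, mul_one]
    exact hav i hi
  have hfourier : ∑ j ∈ Finset.range m, ζ ^ (i₀ * j) * S j = (m : K) := by
    rw [hS]
    simp only [Finset.mul_sum]
    rw [Finset.sum_comm]
    have e : ∀ i ∈ Finset.range m, ∑ j ∈ Finset.range m, ζ ^ (i₀ * j) * (a i * ζ⁻¹ ^ (i * j)) =
        a i * if i = i₀ then (m : K) else 0 := by
      intro i hi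
      rw [← sum_pow_mul_eq hζ (Finset.mem_range.1 hi) hi₀', Finset.mul_sum]
      refine Finset.sum_congr rfl fun j _ => ?_
      ring
    rw [Finset.sum_congr rfl e]
    simp only [mul_ite, mul_zero]
    rw [Finset.sum_ite_eq' (Finset.range m) i₀, if_pos hi₀, ha]
    simp only
    rw [mul_inv_cancel₀ (hη0 i₀), one_mul]
  obtain ⟨j, -, hj⟩ : ∃ j ∈ Finset.range m, v (algebraMap K F (S j)) = 1 := by
    by_contra hcon
    have hlt : ∀ j ∈ Finset.range m, v (algebraMap K F (ζ ^ (i₀ * j) * S j)) < 1 := by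
      intro j hj
      rw [map_mul, map_mul, hζv', one_mul]
      exact lt_of_le_of_ne (hSv j) fun h1 => hcon ⟨j, hj, h1⟩
    have h1 : v (algebraMap K F (∑ j ∈ Finset.range m, ζ ^ (i₀ * j) * S j)) < 1 := by
      rw [map_sum]
      exact Valuation.map_sum_lt _ one_ne_zero hlt
    rw [hfourier, map_natCast, hmV] at h1
    exact lt_irrefl _ h1
  have hSj0 : S j ≠ 0 := by
    intro h0
    rw [h0, map_zero, map_zero] at hj
    exact zero_ne_one hj
  -- the Lagrange resolvent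
  set f : ℕ → F := fun i => algebraMap K F (ζ⁻¹ ^ (i * j)) * (γ ^ i) h with hf
  set L : F := ∑ i ∈ Finset.range m, f i with hL
  have hγf : ∀ i, γ (f i) = algebraMap K F (ζ ^ j) * f (i + 1) := by
    intro i
    rw [hf]
    simp only [map_mul, AlgEquiv.commutes]
    have e1 : γ ((γ ^ i) h) = (γ ^ (i + 1)) h := by rw [pow_succ']; rfl
    rw [e1, ← mul_assoc, ← map_mul]
    congr 2
    rw [add_mul, one_mul, pow_add, ← mul_assoc, mul_comm (ζ ^ j), mul_assoc, ← mul_pow,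
      mul_inv_cancel₀ hζ0, one_pow, mul_one]
  have hfm : f m = f 0 := by
    rw [hf]
    simp only [hγ, zero_mul, pow_zero]
    rw [pow_mul, inv_pow, hζ.pow_eq_one, inv_one, one_pow]
  have hγL : γ L = algebraMap K F (ζ ^ j) * L := by
    rw [hL, map_sum, Finset.sum_congr rfl fun i _ => hγf i, ← Finset.mul_sum]
    congr 1
    have h1 := Finset.sum_range_succ f m
    have h2 := Finset.sum_range_succ' f m
    rw [h1, hfm] at h2
    exact (add_right_cancel h2).symm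
  -- `L / h` is congruent to a constant
  have hLC : IsC K V (L * h⁻¹) := by
    refine ⟨η i₀ * S j, mul_ne_zero (hη0 i₀) hSj0, ?_⟩
    set ε : ℕ → F := fun i => (γ ^ i) h * h⁻¹ * (algebraMap K F (η i))⁻¹ - 1 with hε
    have hεv : ∀ i, v (ε i) < 1 := fun i => hη i
    have e : L * h⁻¹ * (algebraMap K F (η i₀ * S j))⁻¹ - 1 =
        (∑ i ∈ Finset.range m, algebraMap K F (a i * ζ⁻¹ ^ (i * j)) * ε i) *
          (algebraMap K F (S j))⁻¹ := by
      have hSF : algebraMap K F (S j) ≠ 0 := (map_ne_zero _).2 hSj0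
      have e1 : ∀ i, f i * h⁻¹ = algebraMap K F (η i₀) *
          (algebraMap K F (a i * ζ⁻¹ ^ (i * j)) * (1 + ε i)) := by
        intro i
        rw [hf, hε, ha]
        simp only [map_mul, map_inv₀]
        have := hηF i
        have := hηF i₀
        field_simp
        ring
      have e2 : L * h⁻¹ = algebraMap K F (η i₀) * (algebraMap K F (S j) +
          ∑ i ∈ Finset.range m, algebraMap K F (a i * ζ⁻¹ ^ (i * j)) * ε i) := by
        rw [hL, Finset.sum_mul, Finset.sum_congr rfl fun i _ => e1 i, ← Finset.mul_sum]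
        congr 1
        rw [hS]
        simp only [map_sum, mul_add, mul_one, Finset.sum_add_distrib]
      rw [e2, map_mul]
      have := hηF i₀
      field_simp
      ring
    unfold IsOneAt
    rw [e, map_mul, map_inv₀, ← hv, hj, inv_one, mul_one]
    refine Valuation.map_sum_lt _ one_ne_zero fun i hi => ?_
    rw [map_mul, map_mul, map_mul, hζv, mul_one]
    exact lt_of_le_of_lt (mul_le_of_le_one_left' (hav i hi)) (hεv i)
  exact ⟨j, L, left_ne_zero_of_mul hLC.ne_zero, hγL, hLC⟩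

/-- **LEMMA RES.** -/
theorem res [IsAlgClosed K] (V : ValuationSubring F) (γ : F ≃ₐ[K] F) {m n : ℕ} (hm : 0 < m)
    (hn : 0 < n) (hγ : γ ^ m = 1) (hmV : V.valuation (m : F) = 1)
    {ζ : K} (hζ : IsPrimitiveRoot ζ m) {ω : K} (hω : IsPrimitiveRoot ω n)
    {θ : F} (hθ0 : θ ≠ 0) (hθ : γ θ = algebraMap K F ζ * θ)
    {g h : F} (H : ∀ i : ℕ, IsC K V (g * (((γ ^ i) h) ^ n)⁻¹)) :
    ∃ (j : ℕ) (h₀ : F), γ h₀ = h₀ ∧ h₀ ≠ 0 ∧ IsC K V (g * ((h₀ * θ ^ j) ^ n)⁻¹) := by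
  obtain ⟨j, L, hL0, hγL, hLC⟩ := res_core V γ hm hn hγ hmV hζ hω H
  have hζ0 : ζ ≠ 0 := hζ.ne_zero hm.ne'
  have hh0 : h ≠ 0 := by
    have h1 := right_ne_zero_of_mul hLC.ne_zero
    exact fun h0 => h1 (by rw [h0, inv_zero])
  refine ⟨j, L * (θ ^ j)⁻¹, ?_, mul_ne_zero hL0 (inv_ne_zero (pow_ne_zero j hθ0)), ?_⟩
  · rw [map_mul, map_inv₀, map_pow, hγL, hθ, mul_pow, map_pow]
    have : algebraMap K F ζ ≠ 0 := (map_ne_zero _).2 hζ0
    field_simp
  · have e : g * ((L * (θ ^ j)⁻¹ * θ ^ j) ^ n)⁻¹ =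
        g * (((γ ^ 0) h) ^ n)⁻¹ * ((L * h⁻¹) ^ n)⁻¹ := by
      have : (γ ^ 0) h = h := by rw [pow_zero]; rfl
      rw [this, inv_mul_cancel_right₀ (pow_ne_zero j hθ0), mul_pow, inv_pow]
      field_simp
    rw [e]
    exact (H 0).mul (hLC.pow n).inv

/-- **LEMMA RES**, `θ`-free class form: if `m ∣ n * m'` there is `θ₁ ≠ 0` with `θ₁ ^ n` fixed by `γ` and
`g ^ m' / θ₁ ^ n` congruent to a constant at `V`. -/
theorem res_tau [IsAlgClosed K] (V : ValuationSubring F) (γ : F ≃ₐ[K] F) {m n : ℕ} (hm : 0 < m)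
    (hn : 0 < n) (hγ : γ ^ m = 1) (hmV : V.valuation (m : F) = 1)
    {ζ : K} (hζ : IsPrimitiveRoot ζ m) {ω : K} (hω : IsPrimitiveRoot ω n)
    {g h : F} (H : ∀ i : ℕ, IsC K V (g * (((γ ^ i) h) ^ n)⁻¹)) {m' : ℕ} (hm' : m ∣ n * m') :
    ∃ θ₁ : F, θ₁ ≠ 0 ∧ γ (θ₁ ^ n) = θ₁ ^ n ∧ IsC K V (g ^ m' * (θ₁ ^ n)⁻¹) := by
  obtain ⟨j, L, hL0, hγL, hLC⟩ := res_core V γ hm hn hγ hmV hζ hω H
  have hh0 : h ≠ 0 := by
    have h1 := right_ne_zero_of_mul hLC.ne_zero
    exact fun h0 => h1 (by rw [h0, inv_zero])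
  refine ⟨L ^ m', pow_ne_zero _ hL0, ?_, ?_⟩
  · obtain ⟨t, ht⟩ := hm'
    rw [map_pow, map_pow, hγL, mul_pow, mul_pow, ← map_pow, ← map_pow, ← pow_mul, ← pow_mul]
    have e : j * (m' * n) = m * (t * j) := by
      calc j * (m' * n) = (n * m') * j := by ring
        _ = m * (t * j) := by rw [ht]; ring
    rw [e, pow_mul, hζ.pow_eq_one, one_pow, map_one, one_mul]
  · have e : g ^ m' * ((L ^ m') ^ n)⁻¹ =
        (g * (((γ ^ 0) h) ^ n)⁻¹ * ((L * h⁻¹) ^ n)⁻¹) ^ m' := by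
      have : (γ ^ 0) h = h := by rw [pow_zero]; rfl
      rw [this, mul_pow L, inv_pow h, mul_inv, inv_inv, mul_assoc, mul_comm (L ^ n)⁻¹,
        ← mul_assoc (h ^ n)⁻¹, inv_mul_cancel₀ (pow_ne_zero n hh0), one_mul, mul_pow, inv_pow,
        ← pow_mul, ← pow_mul, mul_comm n m']
    rw [e]
    exact ((H 0).mul (hLC.pow n).inv).pow m'

/-- **LEMMA RES**, class form: if `m ∣ n * m'` then `g ^ m'` is, up to an `n`-th power of `F₀` and an
element `τ ∈ F₀` which is an `n`-th power in `F` (so that its Kummer class dies in `F`), congruent to a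
constant at `V`. -/
theorem res_class [IsAlgClosed K] (V : ValuationSubring F) (γ : F ≃ₐ[K] F) {m n : ℕ} (hm : 0 < m)
    (hn : 0 < n) (hγ : γ ^ m = 1) (hmV : V.valuation (m : F) = 1)
    {ζ : K} (hζ : IsPrimitiveRoot ζ m) {ω : K} (hω : IsPrimitiveRoot ω n)
    {θ : F} (hθ0 : θ ≠ 0) (hθ : γ θ = algebraMap K F ζ * θ)
    {g h : F} (H : ∀ i : ℕ, IsC K V (g * (((γ ^ i) h) ^ n)⁻¹)) {m' : ℕ} (hm' : m ∣ n * m') :
    ∃ h₁ τ θ₁ : F, γ h₁ = h₁ ∧ h₁ ≠ 0 ∧ γ τ = τ ∧ θ₁ ≠ 0 ∧ τ = θ₁ ^ n ∧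
      IsC K V (g ^ m' * (h₁ ^ n * τ)⁻¹) := by
  obtain ⟨j, h₀, hfix, h00, hC⟩ := res V γ hm hn hγ hmV hζ hω hθ0 hθ H
  refine ⟨h₀ ^ m', (θ ^ (j * m')) ^ n, θ ^ (j * m'), by rw [map_pow, hfix], pow_ne_zero _ h00, ?_,
    pow_ne_zero _ hθ0, rfl, ?_⟩
  · obtain ⟨t, ht⟩ := hm'
    rw [map_pow, map_pow, hθ, mul_pow, mul_pow, ← map_pow, ← map_pow, ← pow_mul]
    have e : j * m' * n = m * (t * j) := by
      calc j * m' * n = (n * m') * j := by ring
        _ = m * (t * j) := by rw [ht]; ring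
    rw [e, pow_mul, hζ.pow_eq_one, one_pow, map_one, one_mul]
  · have e : g ^ m' * ((h₀ ^ m') ^ n * (θ ^ (j * m')) ^ n)⁻¹ = (g * ((h₀ * θ ^ j) ^ n)⁻¹) ^ m' := by
      rw [mul_pow, inv_pow, ← pow_mul, ← pow_mul, ← pow_mul, mul_pow, ← pow_mul]
      congr 3
      · ring
      · ring
    rw [e]
    exact hC.pow m'

end Fermat.Agent.S43.T2
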