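/-
Row 37 (S43), block T2 (helper210).  Two polynomial congruences mod `p` for `P = p ^ e`:
`∑_{j < P} (1 + X)^j ≡ X^(P-1)` and `(1 + X)^P ≡ 1 + X^P`, and their images in any ring.
Mathlib only.
-/
import Mathlib

set_option autoImplicit false

namespace Fermat.Agent.S43.T2

open Polynomial

theorem C_dvd_of_map_eq_zero (p : ℕ) (f : ℤ[X])
    (h : f.map (Int.castRingHom (ZMod p)) = 0) : C (p : ℤ) ∣ f := by
  rw [Polynomial.C_dvd_iff_dvd_coeff]
  intro i
  have := congrArg (fun g => g.coeff i) h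
  simp only [coeff_map, coeff_zero, eq_intCast] at this
  exact (ZMod.intCast_zmod_eq_zero_iff_dvd _ _).mp this

theorem exists_pow_poly (p e : ℕ) [Fact p.Prime] :
    ∃ r : ℤ[X], (1 + X : ℤ[X]) ^ (p ^ e) = 1 + X ^ (p ^ e) + C (p : ℤ) * r := by
  have : C (p : ℤ) ∣ (1 + X : ℤ[X]) ^ (p ^ e) - (1 + X ^ (p ^ e)) := by
    apply C_dvd_of_map_eq_zero
    simp only [Polynomial.map_sub, Polynomial.map_pow, Polynomial.map_add, Polynomial.map_one,
      Polynomial.map_X]
    rw [add_pow_char_pow, one_pow, sub_self]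
  obtain ⟨r, hr⟩ := this
  exact ⟨r, by rw [← hr]; ring⟩

theorem exists_nm_poly (p e : ℕ) [Fact p.Prime] :
    ∃ r : ℤ[X], (∑ j ∈ Finset.range (p ^ e), (1 + X : ℤ[X]) ^ j) =
      X ^ (p ^ e - 1) + C (p : ℤ) * r := by
  have hP : 0 < p ^ e := pow_pos (Fact.out : p.Prime).pos e
  have : C (p : ℤ) ∣ (∑ j ∈ Finset.range (p ^ e), (1 + X : ℤ[X]) ^ j) - X ^ (p ^ e - 1) := by
    apply C_dvd_of_map_eq_zero
    simp only [Polynomial.map_sub, Polynomial.map_pow, Polynomial.map_add, Polynomial.map_one,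
      Polynomial.map_X, Polynomial.map_sum]
    have h1 : (∑ j ∈ Finset.range (p ^ e), (1 + X : (ZMod p)[X]) ^ j) * X =
        X ^ (p ^ e - 1) * X := by
      have := geom_sum_mul (1 + X : (ZMod p)[X]) (p ^ e)
      rw [add_sub_cancel_left, add_pow_char_pow, one_pow, add_sub_cancel_left] at this
      rw [this, ← pow_succ, Nat.sub_add_cancel hP]
    rw [sub_eq_zero]
    exact mul_right_cancel₀ X_ne_zero h1
  obtain ⟨r, hr⟩ := this
  exact ⟨r, by rw [← hr]; ring⟩

/-- In any ring: `(1 + T)^P = 1 → T^P ∈ p A`. -/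
theorem exists_pow_eq {A : Type*} [Ring A] (p e : ℕ) [Fact p.Prime] (T : A)
    (hT : (1 + T) ^ (p ^ e) = 1) : ∃ R : A, T ^ (p ^ e) = (p : ℕ) • R := by
  obtain ⟨r, hr⟩ := exists_pow_poly p e
  have := congrArg (aeval T) hr
  simp only [map_pow, map_add, map_one, aeval_X, map_mul, aeval_C] at this
  rw [hT] at this
  refine ⟨- aeval T r, ?_⟩
  have h2 : T ^ (p ^ e) + (algebraMap ℤ A (p : ℤ)) * aeval T r = 0 := by
    have h3 : (1 : A) + (T ^ (p ^ e) + (algebraMap ℤ A (p : ℤ)) * aeval T r) = 1 + 0 := by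
      rw [add_zero, ← add_assoc]; exact this.symm
    exact add_left_cancel h3
  rw [eq_neg_of_add_eq_zero_left h2]
  simp [nsmul_eq_mul]

/-- In any ring: `∑_{j < P} (1 + T)^j = T^(P-1) + p R`. -/
theorem exists_nm_eq {A : Type*} [Ring A] (p e : ℕ) [Fact p.Prime] (T : A) :
    ∃ R : A, (∑ j ∈ Finset.range (p ^ e), (1 + T) ^ j) = T ^ (p ^ e - 1) + (p : ℕ) • R := by
  obtain ⟨r, hr⟩ := exists_nm_poly p e
  have := congrArg (aeval T) hr
  simp only [map_pow, map_add, map_one, aeval_X, map_mul, aeval_C, map_sum] at this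
  refine ⟨aeval T r, ?_⟩
  rw [this]
  simp [nsmul_eq_mul]

end Fermat.Agent.S43.T2
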