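/-
Row 37 (S43), block T2 (helper210).  DEVISSAGE at level `Γ₀`: from
* `N₀ ∘ N₀ = 0`,
* (E') on the `p`-torsion: `p y = 0`, `N₀ y = 0` ⟹ `y = N₀ z` with `p z = 0`,
* `W₀` is `ℤ/p^k`-free in the form `p^j y = 0 → y ∈ p^(k-j) W₀`,
we get the two hypotheses `hE`, `hpure` of `T2.Data`.   Mathlib only.
-/
import Mathlib

set_option autoImplicit false

namespace Fermat.Agent.S43.T2

variable {W₀ : Type*} [AddCommGroup W₀] (p k : ℕ) (N₀ : W₀ →+ W₀)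

section

variable (hk : 0 < k) (hW₀ : ∀ y : W₀, p ^ k • y = 0) (hN : ∀ y, N₀ (N₀ y) = 0)
  (hE1 : ∀ y, p • y = 0 → N₀ y = 0 → ∃ z, p • z = 0 ∧ y = N₀ z)
  (hdiv : ∀ j, j ≤ k → ∀ y : W₀, p ^ j • y = 0 → ∃ z, y = p ^ (k - j) • z)

include hk hW₀ hN hE1 hdiv

theorem dev_step (y : W₀) (hy : N₀ y = 0) : ∃ z y', y = N₀ z + p • y' ∧ N₀ y' = 0 := by
  have hpk : p * p ^ (k - 1) = p ^ k := by rw [← pow_succ', Nat.sub_add_cancel hk]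
  obtain ⟨z₀, hz₀, hyz⟩ := hE1 (p ^ (k - 1) • y) (by rw [← mul_smul, hpk, hW₀])
    (by rw [map_nsmul, hy, smul_zero])
  obtain ⟨z, rfl⟩ := hdiv 1 hk z₀ (by rwa [pow_one])
  obtain ⟨y₁, hy₁⟩ := hdiv (k - 1) (Nat.sub_le k 1) (y - N₀ z) (by
    rw [smul_sub, hyz, map_nsmul, sub_self])
  have hk1 : k - (k - 1) = 1 := by omega
  rw [hk1, pow_one] at hy₁
  have h1 : p • N₀ y₁ = 0 := by
    rw [← map_nsmul, ← hy₁, map_sub, hy, hN, sub_zero]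
  obtain ⟨y₂, hy₂, hy12⟩ := hE1 (N₀ y₁) h1 (hN y₁)
  refine ⟨z, y₁ - y₂, ?_, by rw [map_sub, hy12, sub_self]⟩
  rw [smul_sub, hy₂, sub_zero, ← hy₁]; abel

theorem dev_iter (j : ℕ) : ∀ y : W₀, N₀ y = 0 → ∃ z y', y = N₀ z + p ^ j • y' ∧ N₀ y' = 0 := by
  induction j with
  | zero => intro y hy; exact ⟨0, y, by simp, hy⟩
  | succ j ih =>
    intro y hy
    obtain ⟨z, y', rfl, hy'⟩ := ih y hy
    obtain ⟨z', y'', rfl, hy''⟩ := dev_step p k N₀ hk hW₀ hN hE1 hdiv y' hy'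
    refine ⟨z + p ^ j • z', y'', ?_, hy''⟩
    rw [map_add, map_nsmul, smul_add, ← mul_smul, ← pow_succ]; abel

/-- (E) at level `p ^ k`. -/
theorem dev_hE (y : W₀) : N₀ y = 0 ↔ ∃ z, y = N₀ z := by
  constructor
  · intro hy
    obtain ⟨z, y', rfl, -⟩ := dev_iter p k N₀ hk hW₀ hN hE1 hdiv k y hy
    exact ⟨z, by rw [hW₀, add_zero]⟩
  · rintro ⟨z, rfl⟩; exact hN z

/-- purity of `ker N₀`. -/
theorem dev_hpure (y : W₀) (hy : N₀ (p ^ (k - 1) • y) = 0) : ∃ z z', y = N₀ z + p • z' := by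
  have hk1 : k - (k - 1) = 1 := by omega
  obtain ⟨z, hz⟩ := hdiv (k - 1) (Nat.sub_le k 1) (N₀ y) (by rw [← map_nsmul]; exact hy)
  rw [hk1, pow_one] at hz
  have h1 : p • N₀ z = 0 := by rw [← map_nsmul, ← hz, hN]
  obtain ⟨z'', hz'', hzz⟩ := hE1 (N₀ z) h1 (hN z)
  obtain ⟨z', hz'⟩ := (dev_hE p k N₀ hk hW₀ hN hE1 hdiv (z - z'')).mp (by
    rw [map_sub, hzz, sub_self])
  have h2 : N₀ (y - p • z') = 0 := by
    rw [map_sub, map_nsmul, ← hz', smul_sub, hz'', sub_zero, hz, sub_self]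
  obtain ⟨z₃, hz₃⟩ := (dev_hE p k N₀ hk hW₀ hN hE1 hdiv _).mp h2
  exact ⟨z₃, z', by rw [← hz₃]; abel⟩

end

end Fermat.Agent.S43.T2
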