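/-
Row 37 (S43), block T2 (helper140): `(T2)` by counting.  File 1: the fixed point lemma and Nakayama.

`Q` a finite abelian group killed by `p ^ k`, `f` an additive endomorphism with `f^[p ^ a] = id`.
* `exists_fixed`  : if `Q ≠ 0` there is a nonzero fixed point;
* `exists_fixed_of_stable` : the same for an `f`-stable subgroup;
* `eq_top_of_nak` : Nakayama: an `f`-stable subgroup `X` with `X + (f - 1) Q = Q` is everything.
Mathlib only.
-/
import Mathlib

set_option autoImplicit false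

namespace Fermat.Agent.S43.T2

variable {p : ℕ} [Fact p.Prime]

theorem dvd_card_of_ne {Q : Type*} [AddCommGroup Q] [Finite Q] (k : ℕ)
    (hk : ∀ x : Q, p ^ k • x = 0) (hne : ∃ x : Q, x ≠ 0) : p ∣ Nat.card Q := by
  by_contra hp
  obtain ⟨x, hx⟩ := hne
  apply hx
  have hcop : Nat.Coprime (p ^ k) (Nat.card Q) :=
    Nat.Coprime.pow_left k ((Nat.Prime.coprime_iff_not_dvd (Fact.out : p.Prime)).2 hp)
  have h1 : addOrderOf x ∣ p ^ k := addOrderOf_dvd_of_nsmul_eq_zero (hk x)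
  have h2 : addOrderOf x ∣ Nat.card Q := addOrderOf_dvd_natCard x
  have h3 : addOrderOf x = 1 := Nat.eq_one_of_dvd_coprimes hcop h1 h2
  exact AddMonoid.addOrderOf_eq_one_iff.1 h3

theorem exists_fixed {Q : Type*} [AddCommGroup Q] [Finite Q] (k a : ℕ)
    (hk : ∀ x : Q, p ^ k • x = 0) (f : Q →+ Q) (hf : ∀ x, f^[p ^ a] x = x)
    (hne : ∃ x : Q, x ≠ 0) : ∃ x : Q, x ≠ 0 ∧ f x = x := by
  classical
  have hpos : 0 < p ^ a := pow_pos (Fact.out : p.Prime).pos a
  obtain ⟨m, hm⟩ : ∃ m, p ^ a = m + 1 := ⟨p ^ a - 1, by omega⟩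
  have hinj : Function.Injective f := by
    intro x y hxy
    have h1 := hf x
    have h2 := hf y
    rw [hm, Function.iterate_succ_apply] at h1 h2
    rw [← h1, ← h2, hxy]
  have hsurj : Function.Surjective f := by
    intro y
    refine ⟨f^[m] y, ?_⟩
    have h2 := hf y
    rw [hm, Function.iterate_succ_apply'] at h2
    exact h2
  let e : Equiv.Perm Q := Equiv.ofBijective f ⟨hinj, hsurj⟩
  have he : ∀ (j : ℕ) (x : Q), (e ^ j) x = f^[j] x := by
    intro j x
    rw [← Equiv.Perm.iterate_eq_pow]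
    rfl
  have he1 : e ^ (p ^ a) = 1 := by
    ext x
    rw [he, hf]
    rfl
  have hG : IsPGroup p (Subgroup.zpowers e) := by
    rintro ⟨g, hg⟩
    obtain ⟨j, rfl⟩ := Subgroup.mem_zpowers_iff.1 hg
    refine ⟨a, Subtype.ext ?_⟩
    show (e ^ j) ^ (p ^ a) = 1
    rw [← zpow_natCast, ← zpow_mul, mul_comm, zpow_mul, zpow_natCast, he1, one_zpow]
  have h0 : (0 : Q) ∈ MulAction.fixedPoints (Subgroup.zpowers e) Q := by
    rintro ⟨g, hg⟩
    obtain ⟨j, rfl⟩ := Subgroup.mem_zpowers_iff.1 hg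
    show (e ^ j) 0 = 0
    have h1 : e 0 = 0 := map_zero f
    exact Equiv.Perm.zpow_apply_eq_self_of_apply_eq_self h1 j
  obtain ⟨b, hb, hne'⟩ := hG.exists_fixed_point_of_prime_dvd_card_of_fixed_point Q
    (dvd_card_of_ne k hk hne) h0
  exact ⟨b, hne'.symm, hb ⟨e, Subgroup.mem_zpowers e⟩⟩

theorem exists_fixed_of_stable {M : Type*} [AddCommGroup M] [Finite M] (k a : ℕ)
    (hk : ∀ x : M, p ^ k • x = 0) (f : M →+ M) (hf : ∀ x, f^[p ^ a] x = x)
    (R : AddSubgroup M) (hR : ∀ x ∈ R, f x ∈ R) (hne : ∃ x ∈ R, x ≠ 0) :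
    ∃ x ∈ R, x ≠ 0 ∧ f x = x := by
  let fR : R →+ R := (f.comp R.subtype).codRestrict R (fun x => hR x x.2)
  have hfR : ∀ (j : ℕ) (x : R), ((fR^[j] x : R) : M) = f^[j] x := by
    intro j
    induction j with
    | zero => intro x; rfl
    | succ j ih =>
      intro x
      rw [Function.iterate_succ_apply, ih, Function.iterate_succ_apply]
      rfl
  obtain ⟨x, hx, hx0⟩ := hne
  obtain ⟨y, hy0, hy⟩ := exists_fixed (p := p) (Q := R) k a
    (fun x => Subtype.ext (by rw [AddSubgroup.coe_nsmul, hk]; rfl)) fR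
    (fun x => Subtype.ext (by rw [hfR, hf]))
    ⟨⟨x, hx⟩, fun h => hx0 (congrArg Subtype.val h)⟩
  exact ⟨y, y.2, fun h => hy0 (Subtype.ext h), congrArg Subtype.val hy⟩

/-- Nakayama. -/
theorem eq_top_of_nak {W : Type*} [AddCommGroup W] [Finite W] (k a : ℕ)
    (hk : ∀ x : W, p ^ k • x = 0) (f : W →+ W) (hf : ∀ x, f^[p ^ a] x = x)
    (X : AddSubgroup W) (hX : ∀ x ∈ X, f x ∈ X)
    (hgen : ∀ x : W, ∃ y : W, x - (f y - y) ∈ X) : X = ⊤ := by
  classical
  let fQ : W ⧸ X →+ W ⧸ X := QuotientAddGroup.map X X f (fun x hx => hX x hx)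
  have hfQ : ∀ (j : ℕ) (x : W), fQ^[j] (QuotientAddGroup.mk x) = QuotientAddGroup.mk (f^[j] x) := by
    intro j
    induction j with
    | zero => intro x; rfl
    | succ j ih =>
      intro x
      rw [Function.iterate_succ_apply, Function.iterate_succ_apply, ← ih]
      rfl
  have hsurj : Function.Surjective (fun z : W ⧸ X => fQ z - z) := by
    intro z
    obtain ⟨x, rfl⟩ := QuotientAddGroup.mk_surjective z
    obtain ⟨y, hy⟩ := hgen x
    refine ⟨QuotientAddGroup.mk y, ?_⟩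
    show (QuotientAddGroup.mk (f y) : W ⧸ X) - QuotientAddGroup.mk y = QuotientAddGroup.mk x
    rw [← QuotientAddGroup.mk_sub, QuotientAddGroup.eq]
    have : -(f y - y) + x = x - (f y - y) := by abel
    rw [this]
    exact hy
  have hinj : Function.Injective (fun z : W ⧸ X => fQ z - z) :=
    Finite.injective_iff_surjective.2 hsurj
  by_contra htop
  have hne : ∃ z : W ⧸ X, z ≠ 0 := by
    by_contra hall
    have hall' : ∀ z : W ⧸ X, z = 0 := fun z => by_contra fun h => hall ⟨z, h⟩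
    apply htop
    rw [eq_top_iff]
    intro x _
    exact (QuotientAddGroup.eq_zero_iff x).1 (hall' _)
  obtain ⟨z, hz0, hz⟩ := exists_fixed (p := p) (Q := W ⧸ X) k a
    (fun z => by
      obtain ⟨x, rfl⟩ := QuotientAddGroup.mk_surjective z
      rw [← QuotientAddGroup.mk_nsmul, hk]
      rfl)
    fQ
    (fun z => by
      obtain ⟨x, rfl⟩ := QuotientAddGroup.mk_surjective z
      rw [hfQ, hf])
    hne
  apply hz0
  apply hinj
  show fQ z - z = fQ 0 - 0
  rw [hz, sub_self, map_zero, sub_zero]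

end Fermat.Agent.S43.T2
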