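/-
Row 37 (S43), block T2 (architect helper210; this file helper189).  LEMMA S (Mathlib only).

`M` a finite abelian group, `f ∈ End M`, `L ≤ M` an `f`-stable subgroup with `f ^ m M ≤ L`.  Then
`[M : L] ≤ [M : L + f M] ^ m`, with equality if `f ^ (m - 1) x ∈ L → x ∈ L + f M`.
The induction step is `[M : L] = [M : L + f M] * [M : f⁻¹ L]`.
-/
import Mathlib

set_option autoImplicit false

namespace Fermat.Agent.S43.T2

variable {M : Type*} [AddCommGroup M]

/-- `[M : L] = [M : L + f M] * [M : f⁻¹ L]`. -/
theorem index_eq_index_sup_mul_index_comap (f : M →+ M) (L : AddSubgroup M) :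
    L.index = (L ⊔ f.range).index * (L.comap f).index := by
  rw [AddSubgroup.index_comap, ← AddSubgroup.relIndex_sup_left f.range L, mul_comm]
  exact (AddSubgroup.relIndex_mul_index le_sup_left).symm

theorem lemmaS_comap_stable (f : M →+ M) (L : AddSubgroup M) (hL : ∀ x ∈ L, f x ∈ L) :
    ∀ x ∈ L.comap f, f x ∈ L.comap f := fun _ hx => hL _ hx

theorem lemmaS_le_comap (f : M →+ M) (L : AddSubgroup M) (hL : ∀ x ∈ L, f x ∈ L) :
    L ≤ L.comap f := fun x hx => hL x hx

theorem lemmaS_iterate_mem (f : M →+ M) (L : AddSubgroup M) (hL : ∀ x ∈ L, f x ∈ L) (k : ℕ)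
    {x : M} (hx : x ∈ L) : f^[k] x ∈ L := by
  induction k with
  | zero => exact hx
  | succ k ih =>
    rw [Function.iterate_succ_apply']
    exact hL _ ih

/-- **LEMMA S**, the inequality. -/
theorem index_le_pow [Finite M] (f : M →+ M) (m : ℕ) (L : AddSubgroup M)
    (hL : ∀ x ∈ L, f x ∈ L) (hm : ∀ x, f^[m] x ∈ L) :
    L.index ≤ (L ⊔ f.range).index ^ m := by
  induction m generalizing L with
  | zero =>
    have : L = ⊤ := eq_top_iff.2 fun x _ => hm x
    rw [this, AddSubgroup.index_top, pow_zero]
  | succ m ih =>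
    rw [index_eq_index_sup_mul_index_comap f L, pow_succ, mul_comm]
    refine Nat.mul_le_mul ?_ le_rfl
    refine (ih (L.comap f) (lemmaS_comap_stable f L hL) fun x => ?_).trans ?_
    · change f (f^[m] x) ∈ L
      rw [← Function.iterate_succ_apply' f]
      exact hm x
    · refine Nat.pow_le_pow_left ?_ m
      exact Nat.le_of_dvd (Nat.pos_of_ne_zero AddSubgroup.index_ne_zero_of_finite)
        (AddSubgroup.index_dvd_of_le (sup_le_sup_right (lemmaS_le_comap f L hL) _))

/-- **LEMMA S**, the case of equality. -/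
theorem index_eq_pow (f : M →+ M) (m : ℕ) (L : AddSubgroup M)
    (hL : ∀ x ∈ L, f x ∈ L) (hm : ∀ x, f^[m + 1] x ∈ L)
    (h : ∀ x, f^[m] x ∈ L → x ∈ L ⊔ f.range) :
    L.index = (L ⊔ f.range).index ^ (m + 1) := by
  induction m generalizing L with
  | zero =>
    have h1 : f.range ≤ L := by
      rintro _ ⟨x, rfl⟩
      exact hm x
    rw [sup_eq_left.2 h1, zero_add, pow_one]
  | succ m ih =>
    have hsup : L.comap f ⊔ f.range = L ⊔ f.range := by
      apply le_antisymm
      · refine sup_le (fun x hx => h x ?_) le_sup_right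
        rw [Function.iterate_succ_apply]
        exact lemmaS_iterate_mem f L hL m hx
      · exact sup_le_sup_right (lemmaS_le_comap f L hL) _
    rw [index_eq_index_sup_mul_index_comap f L, pow_succ _ (m + 1), mul_comm]
    congr 1
    rw [ih (L.comap f) (lemmaS_comap_stable f L hL) (fun x => ?_) (fun x hx => ?_), hsup]
    · change f (f^[m + 1] x) ∈ L
      rw [← Function.iterate_succ_apply' f]
      exact hm x
    · rw [hsup]
      apply h
      rw [Function.iterate_succ_apply']
      exact hx

end Fermat.Agent.S43.T2
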