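/-
Row 37 (S43), block T2 (design helper210, instr. 9098; this file helper189).  Mathlib only.

THE ABSTRACT COUNTING THEOREM (T2): `K ⊓ K' = inc (Y₀)`, `Y₀ = ker N₀ = im N₀`.

`W`, `W₀` finite abelian groups, `p ^ k W = 0`; `T`, `a` endomorphisms of `W` (`b = a - T`), `N₀` an
endomorphism of `W₀`, `pr : W → W₀`, `inc : W₀ → W`, `K`, `K'` subgroups of `W`.
* `(F)`  `pr` onto, `ker pr = T W`, `inc` injective, `T inc = 0`, `inc pr ≡ T ^ (P - 1) mod p`,
         `T ^ P W ≤ p W`;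
* `(E)`  `ker N₀ = im N₀` and `W₀ / Y₀` is free (purity: `p ^ (k - 1) z ∈ Y₀ → z ∈ Y₀ + p W₀`);
* `(K)`  `K`, `K'` are `T`-stable, `a W ≤ K`, `b W ≤ K'`, `pr K ≤ Y₀`, `pr K' ≤ Y₀`;
* `(γ)`  `inc y ∈ K → y ∈ Y₀`, `inc y ∈ K' → y ∈ Y₀`.
-/
import Fermat.Agent.S43.T2.LemmaS

set_option autoImplicit false

namespace Fermat.Agent.S43.T2

section general

variable {M : Type*} [AddCommGroup M]

/-- `p M`. -/
def pS (p : ℕ) (M : Type*) [AddCommGroup M] : AddSubgroup M := (nsmulAddMonoidHom (α := M) p).range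

theorem mem_pS {p : ℕ} {x : M} : x ∈ pS p M ↔ ∃ w : M, x = p • w :=
  ⟨fun ⟨w, hw⟩ => ⟨w, hw.symm⟩, fun ⟨w, hw⟩ => ⟨w, hw.symm⟩⟩

theorem smul_mem_pS (p : ℕ) (w : M) : p • w ∈ pS p M := ⟨w, rfl⟩

theorem count_iterate_nsmul (p j : ℕ) (x : M) :
    (nsmulAddMonoidHom (α := M) p)^[j] x = p ^ j • x := by
  induction j with
  | zero => simp
  | succ j ih =>
    rw [Function.iterate_succ_apply', ih, nsmulAddMonoidHom_apply, ← mul_smul, pow_succ, mul_comm]

theorem count_iterate_nsmul_comm (f : M →+ M) (n j : ℕ) (x : M) :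
    f^[j] (n • x) = n • f^[j] x := by
  induction j with
  | zero => rfl
  | succ j ih => rw [Function.iterate_succ_apply', ih, map_nsmul, ← Function.iterate_succ_apply' f]

theorem mem_sup3 {A B C : AddSubgroup M} {x : M} :
    x ∈ A ⊔ B ⊔ C ↔ ∃ a ∈ A, ∃ b ∈ B, ∃ c ∈ C, x = a + b + c := by
  constructor
  · intro hx
    obtain ⟨y, hy, c, hc, rfl⟩ := AddSubgroup.mem_sup.1 hx
    obtain ⟨a, ha, b, hb, rfl⟩ := AddSubgroup.mem_sup.1 hy
    exact ⟨a, ha, b, hb, c, hc, rfl⟩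
  · rintro ⟨a, ha, b, hb, c, hc, rfl⟩
    exact add_mem (add_mem (AddSubgroup.mem_sup_left (AddSubgroup.mem_sup_left ha))
      (AddSubgroup.mem_sup_left (AddSubgroup.mem_sup_right hb))) (AddSubgroup.mem_sup_right hc)

/-- `[M : K ⊓ K'] [M : K ⊔ K'] = [M : K] [M : K']`. -/
theorem index_inf_mul_index_sup (K K' : AddSubgroup M) :
    (K ⊓ K').index * (K ⊔ K').index = K.index * K'.index := by
  rw [← AddSubgroup.relIndex_mul_index (inf_le_left : K ⊓ K' ≤ K),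
    AddSubgroup.inf_relIndex_left, ← AddSubgroup.relIndex_sup_right K K',
    ← AddSubgroup.relIndex_mul_index (le_sup_right : K' ≤ K ⊔ K')]
  ring

/-- The two step form of LEMMA S (`f = p`, then `f = T`), case of equality. -/
theorem index_eq_pow_two {p k P : ℕ} (hk : 0 < k) (hP : 0 < P) (T : M →+ M)
    (hpk : ∀ x : M, p ^ k • x = 0) (hTP : ∀ x, T^[P] x ∈ pS p M)
    (L : AddSubgroup M) (hL : ∀ x ∈ L, T x ∈ L)
    (H : ∀ x, p ^ (k - 1) • T^[P - 1] x ∈ L → x ∈ L ⊔ pS p M ⊔ T.range) :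
    L.index = (L ⊔ pS p M ⊔ T.range).index ^ (k * P) := by
  obtain ⟨k, rfl⟩ : ∃ k', k = k' + 1 := ⟨k - 1, by omega⟩
  obtain ⟨P, rfl⟩ : ∃ P', P = P' + 1 := ⟨P - 1, by omega⟩
  simp only [Nat.add_sub_cancel] at H
  have hLT : ∀ (j : ℕ) (x : M), x ∈ L → T^[j] x ∈ L := fun j x hx =>
    lemmaS_iterate_mem T L hL j hx
  -- the downward induction
  have claim : ∀ i, i ≤ P → ∀ x, p ^ k • T^[P - i] x ∈ L →
      ∃ l ∈ L, ∃ w z : M, x = l + p • w + T^[i + 1] z := by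
    intro i
    induction i with
    | zero =>
      intro _ x hx
      obtain ⟨l, hl, b, hb, c, ⟨z, rfl⟩, rfl⟩ := mem_sup3.1 (H x hx)
      obtain ⟨w, rfl⟩ := mem_pS.1 hb
      exact ⟨l, hl, w, z, rfl⟩
    | succ i ih =>
      intro hi x hx
      have e1 : P - i = (P - (i + 1)) + 1 := by omega
      have hx' : p ^ k • T^[P - i] x ∈ L := by
        rw [e1, Function.iterate_succ_apply', ← map_nsmul]
        exact hL _ hx
      obtain ⟨l, hl, w, z, rfl⟩ := ih (by omega) x hx'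
      have e2 : p ^ k • T^[P - (i + 1)] (l + p • w + T^[i + 1] z) =
          p ^ k • T^[P - (i + 1)] l + p ^ k • T^[P] z := by
        rw [iterate_map_add, iterate_map_add, count_iterate_nsmul_comm, smul_add, smul_add,
          ← mul_smul, ← pow_succ, hpk, add_zero, ← Function.iterate_add_apply]
        congr 3
        omega
      rw [e2] at hx
      have hz : p ^ k • T^[P] z ∈ L :=
        (AddSubgroup.add_mem_cancel_left L (L.nsmul_mem (hLT _ _ hl) _)).1 hx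
      obtain ⟨l', hl', b, hb, c, ⟨z', rfl⟩, rfl⟩ := mem_sup3.1 (H z hz)
      obtain ⟨w', rfl⟩ := mem_pS.1 hb
      refine ⟨l + T^[i + 1] l', add_mem hl (hLT _ _ hl'), w + T^[i + 1] w', z', ?_⟩
      rw [iterate_map_add, iterate_map_add, count_iterate_nsmul_comm, smul_add,
        ← Function.iterate_succ_apply (⇑T) (i + 1) z']
      abel
  have h1 : L.index = (L ⊔ pS p M).index ^ (k + 1) := by
    refine index_eq_pow (nsmulAddMonoidHom (α := M) p) k L (fun x hx => L.nsmul_mem hx p)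
      (fun x => ?_) (fun x hx => ?_)
    · rw [count_iterate_nsmul, hpk]
      exact L.zero_mem
    · rw [count_iterate_nsmul] at hx
      obtain ⟨l, hl, w, z, rfl⟩ := claim P le_rfl x (by rwa [Nat.sub_self])
      obtain ⟨w', hw'⟩ := mem_pS.1 (hTP z)
      rw [hw']
      exact add_mem (add_mem (AddSubgroup.mem_sup_left hl)
        (AddSubgroup.mem_sup_right (smul_mem_pS p w))) (AddSubgroup.mem_sup_right (smul_mem_pS p w'))
  have h2 : (L ⊔ pS p M).index = (L ⊔ pS p M ⊔ T.range).index ^ (P + 1) := by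
    refine index_eq_pow T P (L ⊔ pS p M) (fun x hx => ?_) (fun x => ?_) (fun x hx => ?_)
    · obtain ⟨l, hl, b, hb, rfl⟩ := AddSubgroup.mem_sup.1 hx
      obtain ⟨w, rfl⟩ := mem_pS.1 hb
      rw [map_add, map_nsmul]
      exact add_mem (AddSubgroup.mem_sup_left (hL l hl))
        (AddSubgroup.mem_sup_right (smul_mem_pS p _))
    · exact AddSubgroup.mem_sup_right (hTP x)
    · apply H
      obtain ⟨l, hl, b, hb, hlb⟩ := AddSubgroup.mem_sup.1 hx
      obtain ⟨w, rfl⟩ := mem_pS.1 hb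
      rw [← hlb, smul_add, ← mul_smul, ← pow_succ, hpk, add_zero]
      exact L.nsmul_mem hl _
  rw [h1, h2, ← pow_mul, mul_comm (P + 1)]

/-- The two step form of LEMMA S, the inequality for `L = 0`. -/
theorem card_le_pow_two [Finite M] {p k P : ℕ} (T : M →+ M)
    (hpk : ∀ x : M, p ^ k • x = 0) (hTP : ∀ x, T^[P] x ∈ pS p M) :
    Nat.card M ≤ (pS p M ⊔ T.range).index ^ (k * P) := by
  have h1 : (⊥ : AddSubgroup M).index ≤ ((⊥ : AddSubgroup M) ⊔ pS p M).index ^ k := by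
    refine index_le_pow (nsmulAddMonoidHom (α := M) p) k ⊥ (fun x hx => ?_) (fun x => ?_)
    · rw [AddSubgroup.mem_bot] at hx ⊢
      rw [hx, map_zero]
    · rw [count_iterate_nsmul, hpk]
      exact AddSubgroup.zero_mem _
  have h2 : (pS p M).index ≤ (pS p M ⊔ T.range).index ^ P := by
    refine index_le_pow T P (pS p M) (fun x hx => ?_) hTP
    obtain ⟨w, rfl⟩ := mem_pS.1 hx
    rw [map_nsmul]
    exact smul_mem_pS p _
  rw [AddSubgroup.index_bot, bot_sup_eq] at h1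
  calc Nat.card M ≤ (pS p M).index ^ k := h1
    _ ≤ ((pS p M ⊔ T.range).index ^ P) ^ k := Nat.pow_le_pow_left h2 k
    _ = (pS p M ⊔ T.range).index ^ (k * P) := by rw [← pow_mul, mul_comm]

end general

variable {W W₀ : Type*} [AddCommGroup W] [AddCommGroup W₀]

/-- The hypotheses of the counting theorem. -/
structure CountHyp (p k P : ℕ) (T a : W →+ W) (N₀ : W₀ →+ W₀) (pr : W →+ W₀) (inc : W₀ →+ W)
    (K K' : AddSubgroup W) : Prop where
  kpos : 0 < k
  Ppos : 0 < P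
  pk : ∀ x : W, p ^ k • x = 0
  TP : ∀ x, ∃ y, T^[P] x = p • y
  Nm : ∀ x, ∃ y, inc (pr x) = T^[P - 1] x + p • y
  pr_surj : Function.Surjective pr
  ker_pr : ∀ x, pr x = 0 ↔ ∃ y, x = T y
  inc_inj : Function.Injective inc
  T_inc : ∀ y, T (inc y) = 0
  exact₀ : ∀ y, N₀ y = 0 ↔ ∃ z, y = N₀ z
  pure₀ : ∀ z, N₀ (p ^ (k - 1) • z) = 0 → ∃ y w, N₀ y = 0 ∧ z = y + p • w
  K_T : ∀ x ∈ K, T x ∈ K
  K'_T : ∀ x ∈ K', T x ∈ K'
  aK : ∀ x, a x ∈ K
  bK' : ∀ x, a x - T x ∈ K'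
  prK : ∀ x ∈ K, N₀ (pr x) = 0
  prK' : ∀ x ∈ K', N₀ (pr x) = 0
  γ : ∀ y, inc y ∈ K → N₀ y = 0
  γ' : ∀ y, inc y ∈ K' → N₀ y = 0
  pr_a : ∀ x, pr (a x) = N₀ (pr x)
  a_inc : ∀ y, a (inc y) = inc (N₀ y)

namespace CountHyp

variable {p k P : ℕ} {T a : W →+ W} {N₀ : W₀ →+ W₀} {pr : W →+ W₀} {inc : W₀ →+ W}
  {K K' : AddSubgroup W}

theorem pr_T (h : CountHyp p k P T a N₀ pr inc K K') (x : W) : pr (T x) = 0 :=
  (h.ker_pr _).2 ⟨x, rfl⟩

theorem TP' (h : CountHyp p k P T a N₀ pr inc K K') (x : W) : T^[P] x ∈ pS p W :=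
  mem_pS.2 (h.TP x)

/-- the index of a subgroup `L` "of type `K`" -/
theorem index_of_type (h : CountHyp p k P T a N₀ pr inc K K') (L : AddSubgroup W) (e : W → W)
    (hLT : ∀ x ∈ L, T x ∈ L) (heL : ∀ x, e x ∈ L) (hpre : ∀ x, pr (e x) = N₀ (pr x))
    (hprL : ∀ x ∈ L, N₀ (pr x) = 0) (hγ : ∀ y, inc y ∈ L → N₀ y = 0) :
    L.index = (N₀.ker ⊔ pS p W₀).index ^ (k * P) := by
  have hsup : L ⊔ pS p W ⊔ T.range = (N₀.ker ⊔ pS p W₀).comap pr := by
    apply le_antisymm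
    · refine sup_le (sup_le (fun x hx => ?_) (fun x hx => ?_)) (fun x hx => ?_)
      · exact AddSubgroup.mem_sup_left (hprL x hx)
      · obtain ⟨w, rfl⟩ := mem_pS.1 hx
        refine AddSubgroup.mem_sup_right ?_
        rw [map_nsmul]
        exact smul_mem_pS p _
      · obtain ⟨y, rfl⟩ := hx
        rw [AddSubgroup.mem_comap]
        rw [h.pr_T]
        exact AddSubgroup.zero_mem _
    · intro x hx
      obtain ⟨y, hy, b, hb, hyb⟩ := AddSubgroup.mem_sup.1 hx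
      obtain ⟨w₀, rfl⟩ := mem_pS.1 hb
      obtain ⟨z, rfl⟩ := (h.exact₀ y).1 hy
      obtain ⟨z', rfl⟩ := h.pr_surj z
      obtain ⟨w', rfl⟩ := h.pr_surj w₀
      have h0 : pr (x - e z' - p • w') = 0 := by
        rw [map_sub, map_sub, hpre, map_nsmul, ← hyb]
        abel
      obtain ⟨t, ht⟩ := (h.ker_pr _).1 h0
      refine mem_sup3.2 ⟨e z', heL z', p • w', smul_mem_pS p w', T t, ⟨t, rfl⟩, ?_⟩
      rw [← ht]
      abel
  rw [index_eq_pow_two h.kpos h.Ppos T h.pk h.TP' L hLT ?_, hsup,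
    AddSubgroup.index_comap_of_surjective _ h.pr_surj]
  intro x hx
  rw [hsup]
  obtain ⟨y, hy⟩ := h.Nm x
  have e1 : inc (p ^ (k - 1) • pr x) = p ^ (k - 1) • T^[P - 1] x := by
    rw [map_nsmul, hy, smul_add, ← mul_smul, ← pow_succ, Nat.sub_add_cancel h.kpos, h.pk, add_zero]
  obtain ⟨y', w, hy', hw⟩ := h.pure₀ (pr x) (hγ _ (by rw [e1]; exact hx))
  rw [AddSubgroup.mem_comap]
  rw [hw]
  exact add_mem (AddSubgroup.mem_sup_left hy') (AddSubgroup.mem_sup_right (smul_mem_pS p w))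

theorem index_K (h : CountHyp p k P T a N₀ pr inc K K') :
    K.index = (N₀.ker ⊔ pS p W₀).index ^ (k * P) :=
  h.index_of_type K a h.K_T h.aK h.pr_a h.prK h.γ

theorem index_K' (h : CountHyp p k P T a N₀ pr inc K K') :
    K'.index = (N₀.ker ⊔ pS p W₀).index ^ (k * P) :=
  h.index_of_type K' (fun x => a x - T x) h.K'_T h.bK'
    (fun x => by rw [map_sub, h.pr_a, h.pr_T, sub_zero]) h.prK' h.γ'

theorem range_eq_ker (h : CountHyp p k P T a N₀ pr inc K K') : N₀.range = N₀.ker := by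
  ext y
  rw [AddMonoidHom.mem_ker, h.exact₀]
  exact ⟨fun ⟨z, hz⟩ => ⟨z, hz.symm⟩, fun ⟨z, hz⟩ => ⟨z, hz.symm⟩⟩

/-- (1) -/
theorem card_le [Finite W] [Finite W₀] (h : CountHyp p k P T a N₀ pr inc K K') :
    Nat.card W ≤ ((N₀.ker ⊔ pS p W₀).index ^ (k * P)) ^ 2 := by
  have hsup : pS p W ⊔ T.range = (pS p W₀).comap pr := by
    apply le_antisymm
    · refine sup_le (fun x hx => ?_) (fun x hx => ?_)
      · obtain ⟨w, rfl⟩ := mem_pS.1 hx
        rw [AddSubgroup.mem_comap]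
        rw [map_nsmul]
        exact smul_mem_pS p _
      · obtain ⟨y, rfl⟩ := hx
        rw [AddSubgroup.mem_comap]
        rw [h.pr_T]
        exact AddSubgroup.zero_mem _
    · intro x hx
      obtain ⟨w₀, hw₀⟩ := mem_pS.1 hx
      obtain ⟨w', rfl⟩ := h.pr_surj w₀
      have h0 : pr (x - p • w') = 0 := by rw [map_sub, map_nsmul, hw₀, sub_self]
      obtain ⟨t, ht⟩ := (h.ker_pr _).1 h0
      have : x = p • w' + T t := by rw [← ht]; abel
      rw [this]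
      exact add_mem (AddSubgroup.mem_sup_left (smul_mem_pS p w')) (AddSubgroup.mem_sup_right ⟨t, rfl⟩)
  have h1 := card_le_pow_two (k := k) T h.pk h.TP'
  rw [hsup, AddSubgroup.index_comap_of_surjective _ h.pr_surj] at h1
  have h2 : (pS p W₀).index ≤ (N₀.ker ⊔ pS p W₀).index ^ 2 := by
    rw [← AddSubgroup.relIndex_mul_index (le_sup_right : pS p W₀ ≤ N₀.ker ⊔ pS p W₀),
      AddSubgroup.relIndex_sup_right, ← h.range_eq_ker, ← AddSubgroup.index_comap, h.range_eq_ker,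
      pow_two]
    refine Nat.mul_le_mul ?_ le_rfl
    refine Nat.le_of_dvd (Nat.pos_of_ne_zero AddSubgroup.index_ne_zero_of_finite)
      (AddSubgroup.index_dvd_of_le (sup_le (fun y hy => ?_) (fun y hy => ?_)))
    · rw [AddSubgroup.mem_comap]
      rw [AddMonoidHom.mem_ker.1 hy]
      exact AddSubgroup.zero_mem _
    · obtain ⟨w, rfl⟩ := mem_pS.1 hy
      rw [AddSubgroup.mem_comap]
      rw [map_nsmul]
      exact smul_mem_pS p _
  calc Nat.card W ≤ (pS p W₀).index ^ (k * P) := h1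
    _ ≤ ((N₀.ker ⊔ pS p W₀).index ^ 2) ^ (k * P) := Nat.pow_le_pow_left h2 _
    _ = ((N₀.ker ⊔ pS p W₀).index ^ (k * P)) ^ 2 := by rw [← pow_mul, ← pow_mul, mul_comm]

/-- (3) -/
theorem index_sup_le [Finite W] (h : CountHyp p k P T a N₀ pr inc K K') :
    (K ⊔ K').index ≤ Nat.card N₀.ker := by
  have hle : N₀.ker.comap pr ≤ K ⊔ K' := by
    intro x hx
    obtain ⟨z, hz⟩ := (h.exact₀ (pr x)).1 hx
    obtain ⟨z', rfl⟩ := h.pr_surj z
    have h0 : pr (x - a z') = 0 := by rw [map_sub, h.pr_a, hz, sub_self]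
    obtain ⟨t, ht⟩ := (h.ker_pr _).1 h0
    have : x = (a z' + a t) + -(a t - T t) := by
      rw [← ht]
      abel
    rw [this]
    exact add_mem (AddSubgroup.mem_sup_left (add_mem (h.aK z') (h.aK t)))
      (AddSubgroup.mem_sup_right (neg_mem (h.bK' t)))
  have h1 : (K ⊔ K').index ≤ (N₀.ker.comap pr).index :=
    Nat.le_of_dvd (Nat.pos_of_ne_zero AddSubgroup.index_ne_zero_of_finite)
      (AddSubgroup.index_dvd_of_le hle)
  rw [AddSubgroup.index_comap_of_surjective _ h.pr_surj, AddSubgroup.index_ker, h.range_eq_ker] at h1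
  exact h1

theorem map_inc_le (h : CountHyp p k P T a N₀ pr inc K K') : N₀.ker.map inc ≤ K ⊓ K' := by
  rintro _ ⟨y, hy, rfl⟩
  obtain ⟨z, rfl⟩ := (h.exact₀ y).1 hy
  rw [← h.a_inc]
  refine ⟨h.aK _, ?_⟩
  have := h.bK' (inc z)
  rwa [h.T_inc, sub_zero] at this

/-- **(T2)**, abstract form: `K ⊓ K' = inc (Y₀)`. -/
theorem inf_eq_map [Finite W] [Finite W₀] (h : CountHyp p k P T a N₀ pr inc K K') :
    K ⊓ K' = N₀.ker.map inc := by
  set C := (N₀.ker ⊔ pS p W₀).index ^ (k * P) with hC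
  have hCpos : 0 < C := pow_pos (Nat.pos_of_ne_zero AddSubgroup.index_ne_zero_of_finite) _
  have h1 := index_inf_mul_index_sup K K'
  rw [h.index_K, h.index_K', ← hC] at h1
  have h2 := AddSubgroup.card_mul_index (K ⊓ K')
  have h3 : Nat.card ↥(K ⊓ K') * (C * C) = Nat.card W * (K ⊔ K').index := by
    rw [← h1, ← h2]
    ring
  have h4 : Nat.card ↥(K ⊓ K') * (C * C) ≤ Nat.card N₀.ker * (C * C) := by
    rw [h3, mul_comm (Nat.card N₀.ker)]
    refine Nat.mul_le_mul ?_ h.index_sup_le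
    have := h.card_le
    rwa [← hC, pow_two] at this
  have h5 : Nat.card ↥(K ⊓ K') ≤ Nat.card N₀.ker :=
    Nat.le_of_mul_le_mul_right h4 (Nat.mul_pos hCpos hCpos)
  have h6 : Nat.card ↥(N₀.ker.map inc) = Nat.card N₀.ker :=
    Nat.card_congr (N₀.ker.equivMapOfInjective inc h.inc_inj).toEquiv.symm
  exact (AddSubgroup.eq_of_le_of_card_ge h.map_inc_le (by rw [h6]; exact h5)).symm

/-- elementwise form -/
theorem exists_eq_inc [Finite W] [Finite W₀] (h : CountHyp p k P T a N₀ pr inc K K') {x : W}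
    (hx : x ∈ K) (hx' : x ∈ K') : ∃ y, N₀ y = 0 ∧ x = inc y := by
  have : x ∈ K ⊓ K' := ⟨hx, hx'⟩
  rw [h.inf_eq_map] at this
  obtain ⟨y, hy, rfl⟩ := this
  exact ⟨y, hy, rfl⟩

/-- the diamonds act trivially on `K ⊓ K'` -/
theorem T_eq_zero [Finite W] [Finite W₀] (h : CountHyp p k P T a N₀ pr inc K K') {x : W}
    (hx : x ∈ K) (hx' : x ∈ K') : T x = 0 := by
  obtain ⟨y, -, rfl⟩ := h.exists_eq_inc hx hx'
  exact h.T_inc y

end CountHyp

end Fermat.Agent.S43.T2
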