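/-
Row 37 (S43), block T2 (helper140): `(T2)` by counting.  File 2: the map `Λ_n ^ h → W`.

`W` a finite abelian group killed by `n = p ^ k`, `δ` an additive endomorphism with `δ^[P] = id`,
`P = p ^ a`.  For `x : Fin h → W` we consider
`Phi c = ∑ j : ZMod P, ∑ i, c j i • δ^[j.val] (x i)`, `c : ZMod P → Fin h → ZMod n`.
* `index_ge` : if `Nm (∑ a_i x_i) ∈ K → a = 0` (`K` a `δ`-stable subgroup) then `(n ^ h) ^ P ≤ [W : K]`;
* `card_le`  : if the `x i` generate `W` modulo `(δ - 1) W` then `|W| ≤ (n ^ h) ^ P`.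
Mathlib only.
-/
import Fermat.Agent.S43.T2.Fixed

set_option autoImplicit false

namespace Fermat.Agent.S43.T2

open scoped BigOperators

variable {p : ℕ} [Fact p.Prime]

section Shift

variable (P : ℕ) [NeZero P] (B : Type*) [AddCommGroup B]

/-- the cyclic shift on `ZMod P → B`. -/
def shift : (ZMod P → B) →+ (ZMod P → B) where
  toFun c := fun j => c (j - 1)
  map_zero' := rfl
  map_add' _ _ := rfl

variable {P B}

omit [NeZero P] in
theorem shift_apply (c : ZMod P → B) (j : ZMod P) : shift P B c j = c (j - 1) := rfl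

theorem shift_iterate (m : ℕ) (c : ZMod P → B) (j : ZMod P) :
    (shift P B)^[m] c j = c (j - m) := by
  induction m generalizing c with
  | zero => simp
  | succ m ih =>
    rw [Function.iterate_succ_apply, ih, shift_apply]
    congr 1
    push_cast
    ring

theorem shift_iterate_self (c : ZMod P → B) : (shift P B)^[P] c = c := by
  funext j
  rw [shift_iterate, ZMod.natCast_self, sub_zero]

theorem const_of_shift_eq {c : ZMod P → B} (h : shift P B c = c) (j : ZMod P) : c j = c 0 := by
  have key : ∀ m : ℕ, c (m : ZMod P) = c 0 := by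
    intro m
    induction m with
    | zero => simp
    | succ m ih =>
      have h1 := congrFun h ((m + 1 : ℕ) : ZMod P)
      rw [shift_apply] at h1
      rw [← h1, ← ih]
      congr 1
      push_cast
      ring
  rw [← ZMod.natCast_zmod_val j]
  exact key _

end Shift

section Iter

variable {W : Type*} {P : ℕ} [NeZero P]

theorem iterate_val_add_one (δ : W → W) (hδ : ∀ x, δ^[P] x = x) (j : ZMod P) (x : W) :
    δ^[(j + 1).val] x = δ (δ^[j.val] x) := by
  have hmod : ∀ (m : ℕ) (x : W), δ^[m % P] x = δ^[m] x := by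
    intro m x
    conv_rhs => rw [← Nat.mod_add_div m P]
    rw [Function.iterate_add_apply]
    congr 1
    induction m / P with
    | zero => simp
    | succ t ih =>
      rw [Nat.mul_succ, Function.iterate_add_apply, hδ]
      exact ih
  rw [ZMod.val_add, hmod, ZMod.val_one_eq_one_mod, add_comm, Function.iterate_add_apply, hmod]
  rfl

theorem sum_zmod_eq_sum_range {M : Type*} [AddCommMonoid M] (g : ℕ → M) :
    ∑ j : ZMod P, g j.val = ∑ m ∈ Finset.range P, g m := by
  refine Finset.sum_bij (fun j _ => j.val) (fun j _ => Finset.mem_range.2 (ZMod.val_lt j))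
    (fun j _ j' _ h => ZMod.val_injective P h) (fun m hm => ?_) (fun _ _ => rfl)
  exact ⟨(m : ZMod P), Finset.mem_univ _, ZMod.val_natCast_of_lt (Finset.mem_range.1 hm)⟩

end Iter

section Phi

variable {W : Type*} [AddCommGroup W] (n P h : ℕ) [NeZero P] [Module (ZMod n) W]

/-- `Λ_n ^ h → W`. -/
def Phi (δ : W →+ W) (x : Fin h → W) : (ZMod P → Fin h → ZMod n) →+ W where
  toFun c := ∑ j : ZMod P, ∑ i, c j i • δ^[j.val] (x i)
  map_zero' := by simp
  map_add' c c' := by simp [add_smul, Finset.sum_add_distrib]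

variable {n P h}

theorem Phi_apply (δ : W →+ W) (x : Fin h → W) (c : ZMod P → Fin h → ZMod n) :
    Phi n P h δ x c = ∑ j : ZMod P, ∑ i, c j i • δ^[j.val] (x i) := rfl

theorem Phi_shift (δ : W →+ W) (hδ : ∀ x, δ^[P] x = x) (x : Fin h → W)
    (c : ZMod P → Fin h → ZMod n) :
    Phi n P h δ x (shift P _ c) = δ (Phi n P h δ x c) := by
  rw [Phi_apply, Phi_apply, map_sum]
  rw [← Equiv.sum_comp (Equiv.addRight (1 : ZMod P))]
  refine Finset.sum_congr rfl fun j _ => ?_
  rw [map_sum]
  refine Finset.sum_congr rfl fun i _ => ?_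
  rw [Equiv.coe_addRight, shift_apply, add_sub_cancel_right, iterate_val_add_one δ hδ,
    ZMod.map_smul]

theorem Phi_const [NeZero n] (δ : W →+ W) (x : Fin h → W) (c : ZMod P → Fin h → ZMod n)
    (hc : ∀ j, c j = c 0) :
    Phi n P h δ x c = ∑ i, (c 0 i).val • ∑ m ∈ Finset.range P, δ^[m] (x i) := by
  rw [Phi_apply, Finset.sum_comm]
  refine Finset.sum_congr rfl fun i _ => ?_
  rw [← sum_zmod_eq_sum_range (P := P) (fun m => δ^[m] (x i)), Finset.smul_sum]
  refine Finset.sum_congr rfl fun j _ => ?_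
  rw [hc j, ← Nat.cast_smul_eq_nsmul (ZMod n), ZMod.natCast_zmod_val]

end Phi

end Fermat.Agent.S43.T2
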